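import Fermat.Agent.Lowering.P3.Statements
import Fermat.Agent.DeligneSerre.Field.Target

/-!
# The geometric input from the bounds on the canonical torsion
-/

set_option autoImplicit false
set_option linter.unusedSectionVars false
set_option synthInstance.maxHeartbeats 400000
set_option maxHeartbeats 1000000

noncomputable section

namespace FLTAgent.Lowering.P3

open DeligneSerre
open scoped MatrixGroups

local notation "LL" => AlgebraicClosure ℚ

variable {p : ℕ} [Fact p.Prime] {O : Type} [CommRing O] [IsDomain O] [IsDiscreteValuationRing O]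
  [Algebra ℤ_[p] O] {S : Setup p O} (X : Aux S)

theorem level_squarefree : Squarefree X.level := by
  classical
  refine Nat.squarefree_mul_iff.2 ⟨?_, S.M0_squarefree, ?_⟩
  · refine Nat.Coprime.prod_right fun q hq => Nat.Coprime.symm ?_
    exact (X.prime q hq).coprime_iff_not_dvd.2 fun h =>
      X.notMem q hq (S.level_mem q (X.prime q hq) h)
  · refine Finset.squarefree_prod_of_pairwise_isCoprime (fun a ha b hb hab => ?_) fun q hq =>
      (X.prime q hq).squarefree
    show IsRelPrime a b
    exact Nat.coprime_iff_isRelPrime.1 ((Nat.coprime_primes (X.prime a ha) (X.prime b hb)).2 hab)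

theorem not_dvd_level : ¬ p ∣ X.level := by
  intro h
  rcases (Fact.out : p.Prime).dvd_mul.1 h with h | h
  · exact S.M0_not_dvd h
  · obtain ⟨q, hq, hpq⟩ := (Nat.Prime.prime (Fact.out : p.Prime)).exists_mem_finset_dvd h
    exact X.notMem q hq ((Nat.prime_dvd_prime_iff_eq Fact.out (X.prime q hq)).1 hpq ▸ S.p_mem)

/-- The auxiliary factor for a prime. -/
def auxFac (l : ℕ) : ℕ := if l = 2 then 9 else 4

theorem allowed (l : ℕ) : X.Allowed (X.level * auxFac l) := by
  have hp := (Fact.out : p.Prime)
  have hp3 := S.p_gt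
  refine ⟨?_, dvd_mul_right _ _, fun h => ?_, fun q hq h => ?_⟩
  · unfold auxFac
    split_ifs
    · exact Or.inr (dvd_mul_left 9 _)
    · exact Or.inl (dvd_mul_left 4 _)
  · rcases hp.dvd_mul.1 h with h | h
    · exact not_dvd_level X h
    · unfold auxFac at h
      split_ifs at h
      · have := (Nat.prime_dvd_prime_iff_eq hp Nat.prime_three).1
          (hp.dvd_of_dvd_pow (n := 2) (by simpa using h)); omega
      · have := (Nat.prime_dvd_prime_iff_eq hp Nat.prime_two).1
          (hp.dvd_of_dvd_pow (n := 2) (by simpa using h)); omega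
  · rcases hq.dvd_mul.1 h with h | h
    · rcases hq.dvd_mul.1 h with h | h
      · exact Or.inl (S.level_mem q hq h)
      · obtain ⟨r, hr, hqr⟩ := (Nat.Prime.prime hq).exists_mem_finset_dvd h
        exact Or.inr ((Nat.prime_dvd_prime_iff_eq hq (X.prime r hr)).1 hqr ▸ hr)
    · left
      unfold auxFac at h
      split_ifs at h
      · exact (Nat.prime_dvd_prime_iff_eq hq Nat.prime_three).1
          (hq.dvd_of_dvd_pow (n := 2) (by simpa using h)) ▸ S.three_mem
      · exact (Nat.prime_dvd_prime_iff_eq hq Nat.prime_two).1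
          (hq.dvd_of_dvd_pow (n := 2) (by simpa using h)) ▸ S.two_mem

theorem auxFac_not_dvd {l : ℕ} (hl : l.Prime) : ¬ l ∣ auxFac l := by
  unfold auxFac
  split_ifs with h2
  · subst h2; decide
  · exact fun h => h2 ((Nat.prime_dvd_prime_iff_eq hl Nat.prime_two).1
      (hl.dvd_of_dvd_pow (n := 2) (by simpa using h)))

instance level_neZero : NeZero X.level :=
  ⟨mul_ne_zero (NeZero.ne S.M0) (Finset.prod_ne_zero_iff.2 fun q hq => (X.prime q hq).ne_zero)⟩

instance auxFac_neZero (l : ℕ) : NeZero (auxFac l) :=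
  ⟨by unfold auxFac; split_ifs <;> norm_num⟩

/-- The realisation with the canonical action. -/
def realisation (hF : TargetFlat) {M : ℕ} [NeZero M] (hA : AuxLevel M) : Realisation p M where
  gt k := gtor (field1 M Kronecker.complexEmb hA) hA (p ^ k)
  flat hpM k P hP := hF p M Kronecker.complexEmb _ hA hpM k P hP

/-- The geometric input. -/
theorem geometry (hF : TargetFlat) (hU : TargetUnipotent) (hI : TargetInertia) : Geometry X := by
  refine ⟨⟨X.level * auxFac 3, inferInstance, allowed X 3, ⟨realisation hF (allowed X 3).aux⟩⟩,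
    fun l hl hlX => ?_, fun l hl _ hlX => ?_⟩
  · set M := X.level * auxFac l with hM
    have hl2 : ¬ l ^ 2 ∣ M := fun h => by
      rw [sq] at h
      obtain ⟨a, ha⟩ := hlX
      rw [hM, ha, mul_assoc] at h
      rcases hl.dvd_mul.1 ((Nat.mul_dvd_mul_iff_left hl.pos).1 h) with h | h
      · exact hl.not_isUnit (level_squarefree X l (by rw [ha]; exact Nat.mul_dvd_mul_left l h))
      · exact auxFac_not_dvd hl h
    have hA := (allowed X l).aux
    have hlM : l ∣ M := hlX.mul_right _
    have hpl : ∀ k : ℕ, ¬ l ∣ p ^ k := fun k h =>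
      not_dvd_level X ((Nat.prime_dvd_prime_iff_eq hl Fact.out).1 (hl.dvd_of_dvd_pow h) ▸ hlX)
    refine ⟨M, inferInstance, realisation hF hA, allowed X l, hl2, ?_, ?_⟩
    · obtain ⟨B, hB, h⟩ := hI M Kronecker.complexEmb (field1 M _ hA) hA l hl hlM hl2
      exact ⟨B, hB, fun V hV σ hσ γ hγ hc k φ hφ => h V hV σ hσ γ hγ hc (p ^ k) (hpl k) φ hφ⟩
    · obtain ⟨B, hB, h⟩ := hU M Kronecker.complexEmb (field1 M _ hA) hA l hl hlM hl2
      exact ⟨B, hB, fun V hV σ hσ k φ hφ => h V hV σ hσ (p ^ k) (hpl k) φ hφ⟩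
  · refine ⟨X.level * auxFac l, inferInstance, allowed X l, fun h => ?_,
      ⟨realisation hF (allowed X l).aux⟩⟩
    rcases hl.dvd_mul.1 h with h | h
    · exact hlX h
    · exact auxFac_not_dvd hl h

end FLTAgent.Lowering.P3
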