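import Fermat.Agent.Lowering.P3.Unipotent
import Fermat.Agent.Lowering.P3.Kummer.Twisted
import Fermat.Agent.DeligneSerre.Residual.Target

/-!
# The two eigenvalues at a prime exactly dividing the level
-/

set_option autoImplicit false
set_option linter.unusedSectionVars false
set_option linter.style.haveILetI false
set_option maxHeartbeats 1600000
set_option synthInstance.maxHeartbeats 400000

noncomputable section

open AlgebraicCurve FLTAgent.Curves IsLocalRing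
open scoped MatrixGroups IntermediateField

namespace FLTAgent.Lowering.P3

open DeligneSerre Levels
open FLTAgent.PeriodHecke (Hpar mat)

local notation "LL" => AlgebraicClosure ℚ
local notation "GG" => (AlgebraicClosure ℚ ≃ₐ[ℚ] AlgebraicClosure ℚ)

/-! ### Classes fixed by the diamonds with entry `±1` at `l` -/

section Fix

variable {n l M : ℕ} (hM : M = n * l) (hcop : n.Coprime l) {A : Type*} [AddCommGroup A]
  {φ : Hpar (CongruenceSubgroup.Gamma1 M) A}

include hM hcop in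
theorem cast_eq_of_mods {a b : ℤ} (h1 : ((a : ℤ) : ZMod n) = b) (h2 : ((a : ℤ) : ZMod l) = b) :
    ((a : ℤ) : ZMod M) = b := by
  rw [ZMod.intCast_eq_intCast_iff_dvd_sub] at h1 h2 ⊢
  rw [hM, Nat.cast_mul]
  exact (Nat.isCoprime_iff_coprime.2 hcop).mul_dvd h1 h2

/-- The element `-1` of `Γ₀(M)`. -/
def negId (M : ℕ) : CongruenceSubgroup.Gamma0 M :=
  ⟨-1, CongruenceSubgroup.Gamma0_mem.mpr (by simp)⟩

theorem diamond_negId (ψ : Hpar (CongruenceSubgroup.Gamma1 M) A) : diamond M (negId M) ψ = ψ := by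
  refine Subtype.ext (AddMonoidHom.ext fun x => ?_)
  obtain ⟨x, rfl⟩ := Additive.ofMul.surjective x
  rw [diamond_apply]
  refine congrArg (fun y => ψ.1 (Additive.ofMul y)) (Subtype.ext ?_)
  show (-1 : SL(2, ℤ)) * x * (-1 : SL(2, ℤ))⁻¹ = x
  rw [show (-1 : SL(2, ℤ))⁻¹ = -1 from inv_eq_of_mul_eq_one_right (by simp)]
  simp

include hM hcop in
/-- A class fixed by the diamonds of `(1, -1)` is fixed by those of `(±1, ±1)`. -/
theorem diamond_fix
    (hφ : ∀ g : CongruenceSubgroup.Gamma0 M, (((g : SL(2, ℤ)) 1 1 : ℤ) : ZMod n) = 1 →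
      (((g : SL(2, ℤ)) 1 1 : ℤ) : ZMod l) = -1 → diamond M g φ = φ)
    (g : CongruenceSubgroup.Gamma0 M)
    (h1 : (((g : SL(2, ℤ)) 1 1 : ℤ) : ZMod n) = 1 ∨ (((g : SL(2, ℤ)) 1 1 : ℤ) : ZMod n) = -1)
    (h2 : (((g : SL(2, ℤ)) 1 1 : ℤ) : ZMod l) = 1 ∨ (((g : SL(2, ℤ)) 1 1 : ℤ) : ZMod l) = -1) :
    diamond M g φ = φ := by
  have base : ∀ g : CongruenceSubgroup.Gamma0 M, (((g : SL(2, ℤ)) 1 1 : ℤ) : ZMod n) = 1 →
      ((((g : SL(2, ℤ)) 1 1 : ℤ) : ZMod l) = 1 ∨ (((g : SL(2, ℤ)) 1 1 : ℤ) : ZMod l) = -1) →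
      diamond M g φ = φ := fun g e1 e2 => by
    rcases e2 with e2 | e2
    · have h : (mat g 1 1 : ZMod M) = (mat (1 : CongruenceSubgroup.Gamma0 M) 1 1 : ZMod M) :=
        cast_eq_of_mods hM hcop (e1.trans (by simp [mat])) (e2.trans (by simp [mat]))
      rw [Resid.diamond_eq h]
      refine Subtype.ext (AddMonoidHom.ext fun x => ?_)
      obtain ⟨x, rfl⟩ := Additive.ofMul.surjective x
      rw [diamond_apply]
      exact congrArg (fun y => φ.1 (Additive.ofMul y)) (Subtype.ext (by simp [conjGamma1]))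
    · exact hφ g e1 e2
  rcases h1 with h1 | h1
  · exact base g h1 h2
  · have e : (((g * negId M : CongruenceSubgroup.Gamma0 M) : SL(2, ℤ)) 1 1 : ℤ) =
        -((g : SL(2, ℤ)) 1 1) := by simp [negId]
    have h := base (g * negId M) (by rw [e, Int.cast_neg, h1, neg_neg])
      (by rw [e, Int.cast_neg, neg_inj, neg_eq_iff_eq_neg]; exact h2.symm)
    rwa [← Resid.diamond_diamond, diamond_negId] at h

end Fix

/-- The rearrangement of the factors. -/
theorem rearrange {R : Type*} [Ring R] (a b : R) (h : Commute a b) :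
    (a - 1) ^ inertiaExp * (a - b) ^ inertiaExp =
      ((a - 1) ^ 2 * (a - b) ^ 3) * ((a - 1) * (a - b) * (a - 1)) ∧
    (a - 1) ^ inertiaExp * (a - b) ^ inertiaExp =
      ((a - 1) ^ 2 * (a - b) ^ inertiaExp) * (a - 1) ^ 2 := by
  have hXY : Commute (a - 1) (a - b) :=
    ((Commute.refl a).sub_right h).sub_left ((Commute.one_left a).sub_right (Commute.one_left b))
  have e1 : (a - 1) * (a - b) * (a - 1) = (a - 1) ^ 2 * (a - b) := by
    rw [mul_assoc, ← hXY.eq, ← mul_assoc, pow_two]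
  constructor
  · rw [e1, mul_assoc ((a - 1) ^ 2), ← mul_assoc ((a - b) ^ 3), (hXY.symm.pow_pow 3 2).eq,
      mul_assoc ((a - 1) ^ 2) ((a - b) ^ 3), ← pow_succ, ← mul_assoc, ← pow_add]
    rfl
  · rw [mul_assoc, (hXY.symm.pow_pow inertiaExp 2).eq, ← mul_assoc, ← pow_add]
    rfl

theorem end_nsmul_mul {G : Type*} [AddCommGroup G] (P Q : AddMonoid.End G) (B : ℕ) (x : G) :
    (B • (P * Q) : AddMonoid.End G) x = P (B • Q x) :=
  (map_nsmul P B (Q x)).symm

theorem units_pm_one {l : ℕ} (hl : l.Prime) (h5 : l < 5) (u : ZMod l) (hu : u ≠ 0) :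
    u = 1 ∨ u = -1 := by
  have := hl.two_le
  interval_cases l <;> first | (norm_num at hl; done) | (revert u; decide)

/-- The case of `l ≤ 3`. -/
theorem inertia_small {M : ℕ} [NeZero M] {κ : LL →+* ℂ} (D : Field1 M κ) (hA : AuxLevel M) {l : ℕ}
    (hl : l.Prime) (hlM : l ∣ M) (hl2 : ¬ l ^ 2 ∣ M) (h5 : l < 5) : ∃ B : ℕ, 0 < B ∧
    ∀ V : ValuationSubring LL, V.LiesOverPrime l → ∀ σ ∈ V.inertiaSubgroupIn ℚ,
      ∀ γ : CongruenceSubgroup.Gamma0 M,
      ∀ (r : ℕ) [NeZero r], ¬ l ∣ r →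
      ∀ φ : Hpar (CongruenceSubgroup.Gamma1 M) (ZMod r),
        (∀ g : CongruenceSubgroup.Gamma0 M, (((g : SL(2, ℤ)) 1 1 : ℤ) : ZMod (M / l)) = 1 →
          (((g : SL(2, ℤ)) 1 1 : ℤ) : ZMod l) = -1 → diamond M g φ = φ) →
        B • (((gtor D hA r).act σ - 1) ^ inertiaExp *
            ((gtor D hA r).act σ - (show AddMonoid.End (Hpar (CongruenceSubgroup.Gamma1 M)
              (ZMod r)) from diamond M γ)) ^ inertiaExp :
          AddMonoid.End (Hpar (CongruenceSubgroup.Gamma1 M) (ZMod r))) φ = 0 := by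
  obtain ⟨B, hB, hUni⟩ := targetUnipotent M κ D hA l hl hlM hl2
  refine ⟨B, hB, fun V hV σ hσ γ r _ hr φ hφ => ?_⟩
  obtain ⟨M0, N', -, rfl, -, hnl⟩ := exists_decomp hA hl hlM hl2
  have hdiv : M0 * (N' * l) / l = M0 * N' := by
    rw [← mul_assoc, Nat.mul_div_cancel _ hl.pos]
  have hφ' : ∀ g : CongruenceSubgroup.Gamma0 (M0 * (N' * l)),
      (((g : SL(2, ℤ)) 1 1 : ℤ) : ZMod (M0 * (N' * l) / l)) = 1 →
        diamond (M0 * (N' * l)) g φ = φ := fun g hg => by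
    rw [hdiv] at hg hφ
    refine diamond_fix (mul_assoc M0 N' l).symm hnl hφ g (Or.inl hg) ?_
    have h0 : (((g : SL(2, ℤ)) 1 0 : ℤ) : ZMod l) = 0 := by
      have := congrArg (ZMod.castHom (show l ∣ M0 * (N' * l) from ⟨M0 * N', by ring⟩) (ZMod l))
        (CongruenceSubgroup.Gamma0_mem.mp g.2)
      simpa using this
    haveI := Fact.mk hl
    obtain ⟨δ, hδ⟩ := exists_unit_lowerRight (g := (g : SL(2, ℤ))) (l := l)
      (CongruenceSubgroup.Gamma0_mem.mpr h0)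
    rw [hδ]
    exact units_pm_one hl h5 _ δ.ne_zero
  set a : AddMonoid.End (Hpar (CongruenceSubgroup.Gamma1 (M0 * (N' * l))) (ZMod r)) :=
    (gtor D hA r).act σ
  set b : AddMonoid.End (Hpar (CongruenceSubgroup.Gamma1 (M0 * (N' * l))) (ZMod r)) :=
    diamond (M0 * (N' * l)) γ
  have hab : Commute a b :=
    AddMonoidHom.ext fun x => actHom_diamond (Tors.targetKummerTheory _ κ D hA) σ γ x
  rw [(rearrange a b hab).2]
  refine (end_nsmul_mul _ _ B φ).trans ?_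
  refine Eq.trans (congrArg _ ?_) (map_zero _)
  exact hUni V hV σ hσ r hr φ hφ'

section Main

variable {κ : LL →+* ℂ} {M0 N' l : ℕ} [NeZero M0] [NeZero N'] [NeZero l] [NeZero (M0 * N')]
  [NeZero (N' * l)] [NeZero (M0 * (N' * l))] [Fact l.Prime]

/-- The cyclotomic exponent is the entry at `l`. -/
theorem exponent_eq (P' : DeligneSerre.Frame κ.range M0 (N' * l)) {σ : GG} {c : ℤ}
    (hc : CycPow P' σ c) {v : ZMod l} (h : ∀ ζ : LL, ζ ^ l = 1 → σ ζ = ζ ^ v.val) :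
    v = (c : ZMod l) := by
  have hp : IsPrimitiveRoot ((zetaL P' : LLˣ) : LL) l := by
    rw [zetaL, Units.val_pow_eq_pow_val]
    exact (topRoot_prim P').pow (Nat.pos_of_ne_zero (NeZero.ne _)) (by ring)
  have h1 : Units.map ((σ : LL →+* LL) : LL →* LL) (zetaL P') = zetaL P' ^ (v.val : ℤ) := by
    refine Units.ext ?_
    rw [zpow_natCast, Units.val_pow_eq_pow_val]
    exact h _ hp.pow_eq_one
  rw [zetaL, map_pow, hc.map, ← zpow_natCast, ← zpow_mul, mul_comm, zpow_mul, zpow_natCast] at h1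
  change zetaL P' ^ c = zetaL P' ^ (v.val : ℤ) at h1
  have h2 : zetaL P' ^ (c - (v.val : ℤ)) = 1 := by rw [zpow_sub, h1, mul_inv_cancel]
  rw [(IsPrimitiveRoot.coe_units_iff.1 hp).zpow_eq_one_iff_dvd] at h2
  have h3 := (ZMod.intCast_eq_intCast_iff_dvd_sub (v.val : ℤ) c l).2 h2
  rw [← h3, Int.cast_natCast, ZMod.natCast_zmod_val]

/-- The product of three differences. -/
theorem triple_kill {V : ValuationSubring LL} [IsAlgClosed (ResidueField V)]
    [CharP (ResidueField V) l] (d : Data κ M0 N' l V) (D : Field1 (M0 * (N' * l)) κ)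
    (hA : AuxLevel (M0 * (N' * l)))
    [IsFunctionField LL (d.top.fld (toLL κ))] [IsFunctionField LL d.FC] [IsFunctionField LL d.F₀]
    [IsFunctionField LL d.F₁] [IsFunctionField (ResidueField V) d.Fb]
    (h5 : 5 ≤ l) (hn4 : 4 ≤ M0 * N') {σ : GG} (hσ : σ ∈ V.inertiaSubgroupIn ℚ)
    (γ : CongruenceSubgroup.Gamma0 (M0 * (N' * l)))
    (hγn : (((γ : SL(2, ℤ)) 1 1 : ℤ) : ZMod (M0 * N')) = 1)
    (hγl : ∀ ζ : LL, ζ ^ l = 1 → σ ζ = ζ ^ ((((γ : SL(2, ℤ)) 1 1 : ℤ) : ZMod l).val))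
    {r : ℕ} [NeZero r] (hr : ¬ l ∣ r) (U : Subgroup (ZMod l)ˣ) [Fintype U]
    (hU : U = Subgroup.zpowers (-1))
    (ψ : Hpar (CongruenceSubgroup.Gamma1 (M0 * (N' * l))) (ZMod r))
    (hψ : ∀ g : CongruenceSubgroup.Gamma0 (M0 * (N' * l)),
      (((g : SL(2, ℤ)) 1 1 : ℤ) : ZMod (M0 * N')) = 1 →
      (((g : SL(2, ℤ)) 1 1 : ℤ) : ZMod l) = -1 → diamond (M0 * (N' * l)) g ψ = ψ)
    (a b : AddMonoid.End (Hpar (CongruenceSubgroup.Gamma1 (M0 * (N' * l))) (ZMod r)))
    (ha : a = (gtor D hA r).act σ) (hb : b = diamond (M0 * (N' * l)) γ) :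
    (finrankAlong LL (topIncl d.top D) * (Fintype.card U * finrankAlong LL
      (up (grp1 (M0 * N') l) : d.F₁ →ₐ[LL] d.top.fld (toLL κ)))) •
      (((a - 1) * (a - b) * (a - 1) : AddMonoid.End _) ψ) = 0 := by
  classical
  set hK := Tors.targetKummerTheory (M0 * (N' * l)) κ D hA
  set F := finrankAlong LL (topIncl d.top D)
  set d₂ := Fintype.card U * finrankAlong LL
    (up (grp1 (M0 * N') l) : d.F₁ →ₐ[LL] d.top.fld (toLL κ))
  -- the twist
  obtain ⟨c, hc⟩ := exists_cycPow d.top σ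
  obtain ⟨t, ht, htc, hrel⟩ := exists_twist d.hl d.above d.cop hσ hc
  have hγc := exponent_eq d.top hc hγl
  have hld : l ∣ M0 * (N' * l) := ⟨M0 * N', by ring⟩
  have htn' : ((t 1 0 : ℤ) : ZMod (M0 * N')) = 0 ∧
      (((t 1 1 : ℤ) : ZMod (M0 * N')) = 1 ∨ ((t 1 1 : ℤ) : ZMod (M0 * N')) = -1) := by
    rcases ht.1 with h | h
    · obtain ⟨-, -, h10, h11⟩ := CongruenceSubgroup.Gamma_mem.mp h
      exact ⟨h10, Or.inl h11⟩
    · obtain ⟨-, -, h10, h11⟩ := CongruenceSubgroup.Gamma_mem.mp h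
      simp only [Matrix.SpecialLinearGroup.coe_neg, Matrix.neg_apply, Int.cast_neg, neg_eq_zero]
        at h10 h11
      exact ⟨h10, Or.inr (neg_eq_iff_eq_neg.1 h11)⟩
  let tt : CongruenceSubgroup.Gamma0 (M0 * (N' * l)) := ⟨t, CongruenceSubgroup.Gamma0_mem.mpr (by
    simpa using cast_eq_of_mods (mul_assoc M0 N' l).symm d.cop (b := 0) (by simpa using htn'.1)
      (by simpa using CongruenceSubgroup.Gamma0_mem.mp ht.2))⟩
  set s : AddMonoid.End (Hpar (CongruenceSubgroup.Gamma1 (M0 * (N' * l))) (ZMod r)) :=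
    diamond (M0 * (N' * l)) tt
  obtain ⟨f, x, hf, hx, hfx, hord⟩ := exists_transfer d.top D hK d.cop
    (H := grp1 (M0 * N') l) (Or.inr rfl) U
    (by rw [hU]; exact Subgroup.mem_zpowers _) (fun h hh => by
      obtain ⟨-, h1 | h1⟩ := mem_pmGamma1_iff.mp hh.2
      · exact ⟨1, one_mem _, h1⟩
      · exact ⟨-1, by rw [hU]; exact Subgroup.mem_zpowers _, by simpa using h1⟩)
    (φ := ψ) (fun g h1 ⟨u, hu, h2⟩ => by
      refine diamond_fix (mul_assoc M0 N' l).symm d.cop hψ g (Or.inl h1) ?_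
      rw [hU] at hu
      obtain ⟨k, rfl⟩ := Subgroup.mem_zpowers_iff.1 hu
      rcases Int.even_or_odd k with e | e
      · exact Or.inl (by rw [h2, e.neg_one_zpow, Units.val_one])
      · exact Or.inr (by rw [h2, e.neg_one_zpow]; simp))
  obtain ⟨α, h, hα, hrel'⟩ := exists_twisted_rel d h5 hn4 hσ hc ht hrel
    (Specialization.natCast_ne_zero_residue d.above hr) hf hord
  set e := galQ (P' := d.top) (H := grp1 (M0 * N') l) (Or.inr rfl) σ
  set f₁ := e f / f
  set f₂ := dQ (P' := d.top) (H := grp1 (M0 * N') l) (Or.inr rfl) ht (e f₁) / f₁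
  set y₁ := galF D σ x / x
  have hy₁ := (actFun_spec hK σ hx).div hK hx
  set y₂ := D.dia tt (galF D σ y₁) / y₁
  have hy₂ := ((actFun_spec hK σ hy₁).dia hK tt).div hK hy₁
  have hy₃ := (actFun_spec hK σ hy₂).div hK hy₂
  have u₁ : up (grp1 (M0 * N') l) f₁ = topIncl d.top D y₁ := by
    rw [map_div₀, map_div₀, up_galQ_topIncl d.top D (Or.inr rfl) σ hfx, hfx]
  have u₂ : up (grp1 (M0 * N') l) f₂ = topIncl d.top D y₂ := by
    rw [map_div₀ (up (grp1 (M0 * N') l)), map_div₀ (topIncl d.top D),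
      up_dQ_topIncl d.top D (Or.inr rfl) tt ht
        (up_galQ_topIncl d.top D (Or.inr rfl) σ u₁), u₁]
  have u₃ : topIncl d.top D (galF D σ y₂ / y₂) =
      algebraMap LL (d.top.fld (toLL κ)) α * up (grp1 (M0 * N') l) h ^ r := by
    rw [map_div₀, ← up_galQ_topIncl d.top D (Or.inr rfl) σ u₂, ← u₂, ← map_div₀, hrel', map_mul,
      map_pow, AlgHom.commutes]
  have h0 := nsmul_eq_zero_of_rel d.top D hK hy₃ hα u₃
  have ha' : ∀ η, a η = actHom hK σ η := fun η => by rw [ha]; rfl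
  have h0' : (F * d₂) • ((a - 1) (s (a ((a - 1) ψ)) - (a - 1) ψ)) = 0 := by
    have h1 : F • ((a - 1) (s (a ((a - 1) (d₂ • ψ))) - (a - 1) (d₂ • ψ))) = 0 := by
      rw [ha]; exact h0
    simp only [map_nsmul, ← nsmul_sub] at h1
    rw [mul_nsmul']
    exact h1
  have hbs : ∀ χ, (∀ g : CongruenceSubgroup.Gamma0 (M0 * (N' * l)),
      (((g : SL(2, ℤ)) 1 1 : ℤ) : ZMod (M0 * N')) = 1 →
      (((g : SL(2, ℤ)) 1 1 : ℤ) : ZMod l) = -1 → diamond (M0 * (N' * l)) g χ = χ) →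
      b (s χ) = χ := fun χ hχ => by
    rw [hb]
    show diamond _ γ (diamond _ tt χ) = χ
    rw [Resid.diamond_diamond]
    have e : ∀ {m : ℕ}, m ∣ M0 * (N' * l) →
        ((((tt * γ : CongruenceSubgroup.Gamma0 (M0 * (N' * l))) : SL(2, ℤ)) 1 1 : ℤ) : ZMod m) =
          ((t 1 1 : ℤ) : ZMod m) * (((γ : SL(2, ℤ)) 1 1 : ℤ) : ZMod m) := fun {m} hm => by
      have h0 : ((t 1 0 : ℤ) : ZMod m) = 0 := by
        have := congrArg (ZMod.castHom hm (ZMod m)) (CongruenceSubgroup.Gamma0_mem.mp tt.2)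
        simpa using this
      simp [tt, Matrix.mul_apply, Fin.sum_univ_two, h0]
    refine diamond_fix (mul_assoc M0 N' l).symm d.cop hχ _ ?_ ?_
    · rw [e ⟨l, (mul_assoc M0 N' l).symm⟩, hγn, mul_one]
      exact htn'.2
    · left
      rw [e hld, hγc, htc]
  have hcomm : ∀ η, a (b η) = b (a η) := fun η => by
    rw [ha', ha', hb]; exact actHom_diamond hK σ γ η
  have hψa : ∀ g : CongruenceSubgroup.Gamma0 (M0 * (N' * l)), ∀ η,
      diamond (M0 * (N' * l)) g η = η → diamond (M0 * (N' * l)) g (a η) = a η := fun g η h => by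
    rw [ha', ← actHom_diamond hK σ g η, h]
  set χ := (a - 1) ψ
  have hχ : ∀ g : CongruenceSubgroup.Gamma0 (M0 * (N' * l)),
      (((g : SL(2, ℤ)) 1 1 : ℤ) : ZMod (M0 * N')) = 1 →
      (((g : SL(2, ℤ)) 1 1 : ℤ) : ZMod l) = -1 → diamond (M0 * (N' * l)) g χ = χ :=
    fun g g1 g2 => by
      show diamond _ g (a ψ - ψ) = a ψ - ψ
      rw [map_sub, hψ g g1 g2, hψa g ψ (hψ g g1 g2)]
  have hfinal : (((a - 1) * (a - b) * (a - 1) : AddMonoid.End _) ψ) =
      b ((a - 1) (s (a χ) - χ)) := by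
    show a (a χ - b χ) - (a χ - b χ) = b (a (s (a χ) - χ) - (s (a χ) - χ))
    rw [map_sub b, ← hcomm, map_sub b, hbs _ fun g g1 g2 => hψa g χ (hχ g g1 g2)]
  rw [hfinal, ← map_nsmul, h0', map_zero]

end Main

theorem targetInertia : TargetInertia := by
  intro M _ κ D hA l hl hlM hl2
  classical
  by_cases h5 : 5 ≤ l
  swap
  · obtain ⟨B, hB, h⟩ := inertia_small D hA hl hlM hl2 (by omega)
    exact ⟨B, hB, fun V hV σ hσ γ _ _ r _ hr φ hφ => h V hV σ hσ γ r hr φ hφ⟩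
  haveI := Fact.mk hl
  haveI : NeZero l := ⟨hl.ne_zero⟩
  obtain ⟨M0, N', hM, rfl, hn3, hnl⟩ := exists_decomp hA hl hlM hl2
  haveI : NeZero M0 := ⟨by rcases hM with rfl | rfl <;> omega⟩
  haveI : NeZero (M0 * N') := ⟨by omega⟩
  haveI : NeZero N' := ⟨fun h => NeZero.ne (M0 * N') (by rw [h, mul_zero])⟩
  haveI : NeZero (N' * l) := ⟨Nat.mul_ne_zero (NeZero.ne N') hl.ne_zero⟩
  have hn4 : 4 ≤ M0 * N' := by
    by_contra hlt
    have h3 : M0 * N' = 3 := by omega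
    rcases hA with h | h
    · rw [← mul_assoc, h3] at h
      have := (Nat.Coprime.dvd_of_dvd_mul_left (by norm_num : Nat.Coprime 4 3) h)
      have := (Nat.prime_dvd_prime_iff_eq Nat.prime_two hl).1 (dvd_trans (by norm_num) this)
      omega
    · rw [← mul_assoc, h3] at h
      have h9 : 3 ∣ l := Nat.dvd_of_mul_dvd_mul_left (by norm_num : 0 < 3) (by simpa using h)
      have := (Nat.prime_dvd_prime_iff_eq Nat.prime_three hl).1 h9
      omega
  obtain ⟨P'⟩ := exists_topFrame κ (K := N' * l) hM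
    (le_trans hn3 (Nat.mul_le_mul_left _ (Nat.le_mul_of_pos_right _ hl.pos)))
  haveI := P'.isFunctionField (toLL κ) (toLL_surjective κ)
  haveI := D.isFunctionField
  haveI := isFunctionField_fldQ P' (H := grp0 (M0 * N') l) (Or.inl rfl)
  haveI := isFunctionField_fldQ P' (H := grp1 (M0 * N') l) (Or.inr rfl)
  set U : Subgroup (ZMod l)ˣ := Subgroup.zpowers (-1)
  haveI : Fintype U := Fintype.ofFinite U
  refine ⟨finrankAlong LL (topIncl P' D) * (Fintype.card U * finrankAlong LL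
      (up (grp1 (M0 * N') l) : fldQ P' (grp1 (M0 * N') l) →ₐ[LL] P'.fld (toLL κ))),
    Nat.mul_pos (finrankAlong_pos _) (Nat.mul_pos Fintype.card_pos (finrankAlong_pos _)),
    fun V hV σ hσ γ hγn hγl r _ hr φ hφ => ?_⟩
  haveI : IsAlgClosed (ResidueField V) := FrobTrace.isAlgClosed_residueField V
  haveI : CharP (ResidueField V) l := FrobTrace.charP_residueField hV
  obtain ⟨d₀⟩ := exists_data hM hn3 hl hnl hV P'
  obtain ⟨d, rfl⟩ : ∃ d : Data κ M0 N' l V, d.top = P' := ⟨{ d₀ with top := P' }, rfl⟩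
  haveI : IsFunctionField LL d.FC := d.low.isFunctionField (toLL κ) (toLL_surjective κ)
  haveI : IsFunctionField (ResidueField V) d.Fb := d.fr.isFunctionField d.red₀ d.red₀_surj
  have hdiv : M0 * (N' * l) / l = M0 * N' := by
    rw [← mul_assoc, Nat.mul_div_cancel _ hl.pos]
  rw [hdiv] at hγn hφ
  set a : AddMonoid.End (Hpar (CongruenceSubgroup.Gamma1 (M0 * (N' * l))) (ZMod r)) :=
    (gtor D hA r).act σ with ha
  set b : AddMonoid.End (Hpar (CongruenceSubgroup.Gamma1 (M0 * (N' * l))) (ZMod r)) :=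
    diamond (M0 * (N' * l)) γ with hb
  have hab : Commute a b :=
    AddMonoidHom.ext fun x => actHom_diamond (Tors.targetKummerTheory _ κ D hA) σ γ x
  rw [(rearrange a b hab).1]
  refine (end_nsmul_mul _ _ _ φ).trans ?_
  refine Eq.trans (congrArg _ ?_) (map_zero _)
  exact triple_kill d D hA h5 hn4 hσ γ hγn hγl hr U rfl φ hφ a b ha hb

end FLTAgent.Lowering.P3
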