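import Fermat.Agent.Lowering.P3.Statements
import Fermat.Agent.Lowering.P3.Levels.Choose
import Fermat.Agent.Lowering.P3.Levels.Symmetry
import Fermat.Agent.Lowering.P3.Levels.Transfer

/-!
# Unipotence at a prime exactly dividing the level
-/

set_option autoImplicit false
set_option linter.unusedSectionVars false
set_option linter.style.haveILetI false
set_option maxHeartbeats 1600000
set_option synthInstance.maxHeartbeats 400000

noncomputable section

open AlgebraicCurve FLTAgent.Curves IsLocalRing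
open scoped MatrixGroups IntermediateField

namespace FLTAgent.Lowering.P3

open DeligneSerre Levels

local notation "LL" => AlgebraicClosure ℚ
local notation "GG" => (AlgebraicClosure ℚ ≃ₐ[ℚ] AlgebraicClosure ℚ)

theorem targetUnipotent : TargetUnipotent := by
  intro M _ κ D hA l hl hlM hl2
  classical
  haveI := Fact.mk hl
  haveI : NeZero l := ⟨hl.ne_zero⟩
  obtain ⟨M0, N', hM, rfl, hn3, hnl⟩ := exists_decomp hA hl hlM hl2
  haveI : NeZero M0 := ⟨by rcases hM with rfl | rfl <;> omega⟩
  haveI : NeZero (M0 * N') := ⟨by omega⟩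
  haveI : NeZero N' := ⟨fun h => NeZero.ne (M0 * N') (by rw [h, mul_zero])⟩
  haveI : NeZero (N' * l) := ⟨Nat.mul_ne_zero (NeZero.ne N') hl.ne_zero⟩
  obtain ⟨P'⟩ := exists_topFrame κ (K := N' * l) hM
    (le_trans hn3 (Nat.mul_le_mul_left _ (Nat.le_mul_of_pos_right _ hl.pos)))
  haveI := P'.isFunctionField (toLL κ) (toLL_surjective κ)
  haveI := D.isFunctionField
  set H := grp0 (M0 * N') l
  haveI := isFunctionField_fldQ P' (H := H) (Or.inl rfl)
  set U : Subgroup (ZMod l)ˣ := ⊤
  haveI : Fintype U := Fintype.ofFinite U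
  refine ⟨finrankAlong LL (topIncl P' D) *
      (Fintype.card U * finrankAlong LL (up H : fldQ P' H →ₐ[LL] P'.fld (toLL κ))),
    Nat.mul_pos (finrankAlong_pos _) (Nat.mul_pos Fintype.card_pos (finrankAlong_pos _)),
    fun V hV σ hσ r _ hr φ hφ => ?_⟩
  set hK := Tors.targetKummerTheory (M0 * (N' * l)) κ D hA
  haveI : IsAlgClosed (ResidueField V) := FrobTrace.isAlgClosed_residueField V
  haveI : CharP (ResidueField V) l := FrobTrace.charP_residueField hV
  obtain ⟨d₀⟩ := exists_data hM hn3 hl hnl hV P'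
  obtain ⟨d, rfl⟩ : ∃ d : Data κ M0 N' l V, d.top = P' :=
    ⟨{ d₀ with top := P' }, rfl⟩
  haveI : IsFunctionField LL d.FC := d.low.isFunctionField (toLL κ) (toLL_surjective κ)
  haveI : IsFunctionField (ResidueField V) d.Fb := d.fr.isFunctionField d.red₀ d.red₀_surj
  have hdiv : M0 * (N' * l) / l = M0 * N' := by
    rw [← mul_assoc, Nat.mul_div_cancel _ hl.pos]
  obtain ⟨f, x, hf, hx, hfx, hord⟩ := exists_transfer d.top D hK hnl (Or.inl rfl) U
    (Subgroup.mem_top _) (fun h hh => by
      have h0 : ((h 1 0 : ℤ) : ZMod l) = 0 := CongruenceSubgroup.Gamma0_mem.mp hh.2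
      have hdet := congrArg (fun z : ℤ => (z : ZMod l))
        (Matrix.det_fin_two (h : Matrix (Fin 2) (Fin 2) ℤ))
      rw [h.det_coe] at hdet
      push_cast at hdet
      rw [h0, mul_zero, sub_zero, mul_comm] at hdet
      exact ⟨Units.mk0 _ (left_ne_zero_of_mul_eq_one hdet.symm), Subgroup.mem_top _, rfl⟩)
    (φ := φ) (fun γ h1 _ => hφ γ (by rw [hdiv]; exact h1))
  obtain ⟨N⟩ := d.sheet_good.nonempty_nodes
  obtain ⟨c, h, hc, hrel⟩ := (d.sym hσ).exists_unipotent d.sheet_good N (n := r) rfl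
    (Specialization.natCast_ne_zero_residue hV hr) hf hord
  set e := galQ (P' := d.top) (H := H) (Or.inl rfl) σ
  change e (e f / f) = c • ((e f / f) * h ^ r) at hrel
  set y₁ := galF D σ x / x
  have hy₁ := (actFun_spec hK σ hx).div hK hx
  have hy₂ := (actFun_spec hK σ hy₁).div hK hy₁
  have hu₁ : up H (e f / f) = topIncl d.top D y₁ := by
    rw [map_div₀, map_div₀, up_galQ_topIncl d.top D (Or.inl rfl) σ hfx, hfx]
  have hu₂ : topIncl d.top D (galF D σ y₁ / y₁) =
      algebraMap LL (d.top.fld (toLL κ)) c * up H h ^ r := by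
    have hne : topIncl d.top D y₁ ≠ 0 := (_root_.map_ne_zero _).2 hy₁.ne_zero
    rw [map_div₀, ← up_galQ_topIncl d.top D (Or.inl rfl) σ hu₁, div_eq_iff hne, hrel,
      Algebra.smul_def, map_mul, map_mul, map_pow, AlgHom.commutes, hu₁]
    ring
  have h0 := nsmul_eq_zero_of_rel d.top D hK hy₂ hc hu₂
  set A : AddMonoid.End (PeriodHecke.Hpar (CongruenceSubgroup.Gamma1 (M0 * (N' * l))) (ZMod r)) :=
    (gtor D hA r).act σ
  change finrankAlong LL (topIncl d.top D) • ((A - 1) ((A - 1) _)) = 0 at h0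
  rw [map_nsmul, map_nsmul, ← mul_nsmul'] at h0
  rw [pow_two]
  exact h0

end FLTAgent.Lowering.P3
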