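import Fermat.Agent.BadRed.Nodes
import Fermat.Agent.BadRed.Landing
import Fermat.Agent.DeligneSerre.Smooth.Full
import Fermat.Prelude.Def_AlgebraicCurve_BaseChangeGalois

/-!
# Two sheeted reductions of cyclic covers: interface

`TwoSheet` is a function field with two reductions into one function field, `TwoSheet.Nodes` the
glued pairs of points. `Cover` is a Kummer extension of the field of a `BadRed.Sheet` branched on
both sheets exactly at the glued points. The three targets: fixed classes on a `TwoSheet`, the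
`TwoSheet` of a `Cover`, and the simple zeros of the Kummer parameter on the special fibre.
-/

set_option autoImplicit false
set_option linter.unusedSectionVars false
set_option linter.style.haveILetI false
set_option synthInstance.maxHeartbeats 400000

noncomputable section

namespace FLTAgent.Lowering.P3

open AlgebraicCurve FLTAgent.Curves FLTAgent.Specialization FLTAgent.BadRed IntermediateField

variable {L k : Type} [Field L] [Field k] {A : ValuationSubring L}

/-- The twisted pair of two reductions. -/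
def pairRed {π : A →+* k} {F Fb : Type} [Field F] [Field Fb] [Algebra L F] [Algebra k Fb]
    (R₁ R₂ : Reduction π F Fb) (d : L) : LRed π F (Fb × Fb) where
  Res f g := R₁.Res f g.1 ∧ R₂.Res (d • f) g.2
  unique h h' := Prod.ext (h.1.unique h'.1) (h.2.unique h'.2)
  res_zero := ⟨R₁.res_zero, by rw [smul_zero]; exact R₂.res_zero⟩
  res_add h h' := ⟨h.1.add h'.1, by rw [smul_add]; exact h.2.add h'.2⟩
  res_smul := fun a {_ _} h => ⟨h.1.smul a, by rw [smul_comm]; exact h.2.smul a⟩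

variable [IsAlgClosed L] [IsAlgClosed k]

/-- A field with two reductions, compatible with a coordinate. -/
structure TwoSheet (π : A →+* k) (F Fb : Type) [Field F] [Field Fb] [Algebra L F] [Algebra k Fb]
    [IsFunctionField L F] [IsFunctionField k Fb] where
  R₁ : Reduction π F Fb
  R₂ : Reduction π F Fb
  surj : Function.Surjective π
  X : F
  xb₁ : Fb
  xb₂ : Fb
  transcendental_X : Transcendental L X
  transcendental₁ : Transcendental k xb₁
  transcendental₂ : Transcendental k xb₂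
  X₁ : R₁.Res X xb₁
  X₂ : R₂.Res X xb₂
  orth : ∀ d : L, d ≠ 0 → (pairRed R₁ R₂ d).Orth
  scaled₁ : R₁.Scaled
  scaled₂ : R₂.Scaled
  res_mem_poles : ∀ (m : ℕ) (f : F) (g : Fb × Fb),
    f ∈ riemannRochSpace ((m : ℤ) • poleDiv L X) → (pairRed R₁ R₂ 1).Res f g →
      g.1 ∈ riemannRochSpace ((m : ℤ) • poleDiv k xb₁) ∧
        g.2 ∈ riemannRochSpace ((m : ℤ) • poleDiv k xb₂)
  arch : ∀ (t : A) (c : L), π t = 0 →
    ∃ (N : ℕ) (h : c * (t : L) ^ N ∈ A), π ⟨_, h⟩ = 0
  exists_nonunit : ∃ t : A, π t = 0 ∧ (t : L) ≠ 0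

namespace TwoSheet

variable {π : A →+* k} {F Fb : Type} [Field F] [Field Fb] [Algebra L F] [Algebra k Fb]
  [IsFunctionField L F] [IsFunctionField k Fb] (S : TwoSheet π F Fb)

/-- The pair of reductions. -/
def pair (d : L) : LRed π F (Fb × Fb) := pairRed S.R₁ S.R₂ d

/-- The target of the reductions. -/
def targ (m : ℕ) : Submodule k (Fb × Fb) :=
  (riemannRochSpace ((m : ℤ) • poleDiv k S.xb₁)).prod
    (riemannRochSpace ((m : ℤ) • poleDiv k S.xb₂))

/-- The reductions of `L(m · poles)`. -/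
def rimg (m : ℕ) : Submodule k (Fb × Fb) :=
  (S.pair 1).image (riemannRochSpace ((m : ℤ) • poleDiv L S.X))

/-- The glued pairs of points: `s i` is evaluation on the first sheet, `t i` on the second. -/
structure Nodes where
  n : ℕ
  s : Fin n → Fb →ₗ[k] k
  t : Fin n → Fb →ₗ[k] k
  m₀ : ℕ
  bound_le : ((rBound k Fb).toNat + (rBound L F).toNat) ≤ m₀
  s_one : ∀ i, s i 1 = 1
  t_one : ∀ i, t i 1 = 1
  s_mul : ∀ i a b, IntegralWrt k S.xb₁ a → IntegralWrt k S.xb₁ b →
    s i (a * b) = s i a * s i b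
  t_mul : ∀ i a b, IntegralWrt k S.xb₂ a → IntegralWrt k S.xb₂ b →
    t i (a * b) = t i a * t i b
  surj₁ : ∀ m, m₀ ≤ m → ∀ c : Fin n → k,
    ∃ a ∈ riemannRochSpace ((m : ℤ) • poleDiv k S.xb₁), ∀ i, s i a = c i
  surj₂ : ∀ m, m₀ ≤ m → ∀ c : Fin n → k,
    ∃ a ∈ riemannRochSpace ((m : ℤ) • poleDiv k S.xb₂), ∀ i, t i a = c i
  compat : ∀ m g, g ∈ S.rimg m → ∀ i, s i g.1 = t i g.2
  char : ∀ m, m₀ ≤ m → ∀ g, g ∈ S.targ m → (∀ i, s i g.1 = t i g.2) → g ∈ S.rimg m

/-- A semilinear automorphism compatible with both reductions and fixing the coordinate. -/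
structure Sym where
  σ : SemilinearAut L F
  σb₁ : Fb →+* Fb
  σb₂ : Fb →+* Fb
  σX : σ • S.X = S.X
  res₁ : ∀ f g, S.R₁.Res f g → S.R₁.Res (σ • f) (σb₁ g)
  res₂ : ∀ f g, S.R₂.Res f g → S.R₂.Res (σ • f) (σb₂ g)

end TwoSheet

/-- A function whose reductions are powers on both sheets is fixed, up to powers and constants, by
an automorphism fixing the values at the glued points. -/
def TargetTwoSheet : Prop :=
  ∀ {L k : Type} [Field L] [Field k] [IsAlgClosed L] [IsAlgClosed k] {A : ValuationSubring L}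
    {π : A →+* k} {F Fb : Type} [Field F] [Field Fb] [Algebra L F] [Algebra k Fb]
    [IsFunctionField L F] [IsFunctionField k Fb] (S : TwoSheet π F Fb) (N : S.Nodes) (P : S.Sym),
    (∀ i a, IntegralWrt k S.xb₁ a → N.s i (P.σb₁ a) = N.s i a) →
    (∀ i a, IntegralWrt k S.xb₂ a → N.t i (P.σb₂ a) = N.t i a) →
    ∀ (n : ℕ), (n : k) ≠ 0 → ∀ f : F, f ≠ 0 → (∀ v : Place L F, (n : ℤ) ∣ v.ord f) →
    ∀ (c₁ c₂ : L) (h₁ h₂ : Fb), h₁ ≠ 0 → h₂ ≠ 0 → S.R₁.Res (c₁ • f) (h₁ ^ n) →
      S.R₂.Res (c₂ • f) (h₂ ^ n) →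
      ∃ (c : L) (h : F), c ≠ 0 ∧ P.σ • f = c • (f * h ^ n)

/-- A Kummer extension of the field of two sheets, branched exactly at the glued points. -/
structure Cover {π : A →+* k} {FC F₀ Ω : Type} [Field FC] [Field F₀] [Field Ω] [Algebra L FC]
    [Algebra L F₀] [Algebra k Ω] [IsFunctionField L FC] [IsFunctionField L F₀]
    {Fb : IntermediateField k Ω} [IsFunctionField k Fb] {q : ℕ} (S : Sheet π FC Fb F₀ q)
    (N : S.Nodes) (F : Type) [Field F] [Algebra L F] [Algebra F₀ F] [IsScalarTower L F₀ F] where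
  m : ℕ
  pos : 0 < m
  m_ne : (m : k) ≠ 0
  Q₁ : Reduction π F Ω
  Q₂ : Reduction π F Ω
  ext₁ : ∀ f g, S.R₁.Res f g → Q₁.Res (algebraMap F₀ F f) (g : Ω)
  ext₂ : ∀ f g, S.R₂.Res f g → Q₂.Res (algebraMap F₀ F f) (g : Ω)
  finrank_eq : Module.finrank F₀ F = m
  x : F
  U : F₀
  x_pow : x ^ m = algebraMap F₀ F U
  η : Ω
  ub : Fb
  η_pow : η ^ m = (ub : Ω)
  c : L
  c_ne : c ≠ 0
  e : Fb
  e_ne : e ≠ 0
  res₁ : Q₁.Res x η
  res₂ : Q₂.Res (c • x) ((e : Ω) / η)
  unramified : ∀ v : Place L F₀, (m : ℤ) ∣ v.ord U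
  ub_regular : IntegralWrt k S.MC.xb ub
  simple : ∀ v : Place k Fb, 0 ≤ v.ord S.MC.xb → v.ord ub ≠ 0 → v.ord ub = 1
  exists_zero : ∃ v : Place k Fb, 0 ≤ v.ord S.MC.xb ∧ v.ord ub = 1
  node_zero : ∀ i, N.s i ub = 0 ∧ N.s i (S.V ub) = 0

/-- The field of residues of a cover. -/
abbrev Cover.resField {π : A →+* k} {FC F₀ Ω : Type} [Field FC] [Field F₀] [Field Ω]
    [Algebra L FC] [Algebra L F₀] [Algebra k Ω] [IsFunctionField L FC] [IsFunctionField L F₀]
    {Fb : IntermediateField k Ω} [IsFunctionField k Fb] {q : ℕ} {S : Sheet π FC Fb F₀ q}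
    {N : S.Nodes} {F : Type} [Field F] [Algebra L F] [Algebra F₀ F] [IsScalarTower L F₀ F]
    (C : Cover S N F) : IntermediateField k Ω :=
  IntermediateField.adjoin k (insert C.η (Fb : Set Ω))

/-- A cover is a two sheet with glued points fixed by the automorphisms of its residue field. -/
def TargetCover : Prop :=
  ∀ {L k : Type} [Field L] [Field k] [IsAlgClosed L] [IsAlgClosed k] {A : ValuationSubring L}
    {π : A →+* k} {FC F₀ Ω : Type} [Field FC] [Field F₀] [Field Ω] [Algebra L FC] [Algebra L F₀]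
    [Algebra k Ω] [IsFunctionField L FC] [IsFunctionField L F₀] {Fb : IntermediateField k Ω}
    [IsFunctionField k Fb] {q : ℕ} (S : Sheet π FC Fb F₀ q) (_ : S.Good) (N : S.Nodes)
    (F : Type) [Field F] [Algebra L F] [Algebra F₀ F] [IsScalarTower L F₀ F]
    [IsFunctionField L F] (C : Cover S N F),
    ∃ (_ : IsFunctionField k C.resField) (T : TwoSheet π F C.resField) (G : T.Nodes),
      T.X = algebraMap F₀ F S.X ∧
      (∀ f g, T.R₁.Res f g ↔ C.Q₁.Res f (g : Ω)) ∧
      (∀ f g, T.R₂.Res f g ↔ C.Q₂.Res f (g : Ω)) ∧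
      (∀ τ : C.resField →+* C.resField,
        (∀ a : C.resField, (a : Ω) ∈ Fb → τ a = a) → ∀ i a,
          (IntegralWrt k T.xb₁ a → G.s i (τ a) = G.s i a) ∧
          (IntegralWrt k T.xb₂ a → G.t i (τ a) = G.t i a)) ∧
      ∀ δ : F ≃ₐ[F₀] F, ∃ τ₁ τ₂ : C.resField →+* C.resField,
        (∀ a : C.resField, (a : Ω) ∈ Fb → τ₁ a = a ∧ τ₂ a = a) ∧
        (∀ f g, T.R₁.Res f g → T.R₁.Res (δ f) (τ₁ g)) ∧
        ∀ f g, T.R₂.Res f g → T.R₂.Res (δ f) (τ₂ g)

open DeligneSerre GoodModel in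
/-- In characteristic `l` the power `(l - 1) / 2` of the inverse of the form of weight two is, if
it is a function, regular with simple zeros and not constant. -/
def TargetSimpleZeros : Prop :=
  ∀ {S : Subring ℂ} {M0 N' : ℕ} [NeZero M0] [NeZero N'] [NeZero (M0 * N')] (P : Frame S M0 N')
    {k : Type} [Field k] [IsAlgClosed k] (φ : S →+* k) (hφ : Function.Surjective φ) (l : ℕ)
    [Fact l.Prime] [CharP k l] [IsFunctionField k (P.fld φ)], 5 ≤ l →
    ∀ G : LaurentSeries S, (wdiff M0 (1, 0) (1, 1), G) ∈ sPairs S (M0 * N') →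
    ∀ u : P.fld φ, (u : LaurentSeries k) * ModularCurve.coeffMap φ G ^ ((l - 1) / 2) = 1 →
      IntegralWrt k (P.jj φ hφ) u → (∀ g ∈ pmGamma M0, P.act φ hφ g u = u) →
      (∀ v : Place k (P.fld φ), 0 ≤ v.ord (P.jj φ hφ) → v.ord u = 0 ∨ v.ord u = 1) ∧
        ∃ v : Place k (P.fld φ), 0 ≤ v.ord (P.jj φ hφ) ∧ v.ord u = 1

end FLTAgent.Lowering.P3
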