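import Fermat.Agent.Lowering.P4.Interface
import Fermat.Agent.DeligneSerre.Galois.Target
import Fermat.Agent.DeligneSerre.Smooth.GoodReduction
import Fermat.Agent.DeligneSerre.TorsionTarget
import Fermat.Agent.FlatLocal.Interface
import Fermat.Agent.Kronecker.Inputs

/-!
# Bounds on the canonical torsion of the auxiliary levels: statements

`gtor` is the torsion of `X₁(M)` with the action on coefficients. The three targets are flatness at
`p`, unipotence at a prime exactly dividing the level on the classes fixed by the diamonds there,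
and the two eigenvalues on the classes fixed by the diamond `-1` there.
-/

set_option autoImplicit false
set_option linter.unusedSectionVars false
set_option synthInstance.maxHeartbeats 400000
set_option maxHeartbeats 1000000

noncomputable section

namespace FLTAgent.Lowering.P3

open DeligneSerre
open scoped MatrixGroups

local notation "LL" => AlgebraicClosure ℚ
local notation "GG" => (AlgebraicClosure ℚ ≃ₐ[ℚ] AlgebraicClosure ℚ)

/-- The canonical action on torsion. -/
def gtor {M : ℕ} [NeZero M] {κ : LL →+* ℂ} (D : Field1 M κ) (hA : AuxLevel M) (n : ℕ) [NeZero n] :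
    GaloisTorsion M n where
  act := actHom (Tors.targetKummerTheory M κ D hA)
  level := exists_level _ hA
  comm_diamond := actHom_diamond _
  comm_hecke σ q _ hq _ φ := actHom_hecke _ σ q hq φ
  inertia _ hℓ hℓMn _ hV _ hσ :=
    actHom_inertia _ (targetGoodReduction1 M κ hA D) hℓ hℓMn hV hσ
  frobenius ℓ _ hℓ hℓn _ hV _ hσ φ :=
    actHom_frobenius _ (targetGoodReduction1 M κ hA D) ℓ hℓ hℓn hV hσ φ

/-- The torsion of a level prime to `p` is finite flat at `p`. -/
def TargetFlat : Prop :=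
  ∀ (p : ℕ) [Fact p.Prime] (M : ℕ) [NeZero M] (κ : LL →+* ℂ) (D : Field1 M κ) (hA : AuxLevel M),
    ¬ p ∣ M → ∀ (k : ℕ) (P : ValuationSubring LL), P.LiesOverPrime p →
      FlatLocal.FlatI P fun σ : FlatLocal.Dec P => (gtor D hA (p ^ k)).act (σ : GG)

/-- Unipotence of echelon two on the classes fixed by the diamonds at `l`. -/
def TargetUnipotent : Prop :=
  ∀ (M : ℕ) [NeZero M] (κ : LL →+* ℂ) (D : Field1 M κ) (hA : AuxLevel M) (l : ℕ),
    l.Prime → l ∣ M → ¬ l ^ 2 ∣ M → ∃ B : ℕ, 0 < B ∧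
    ∀ V : ValuationSubring LL, V.LiesOverPrime l → ∀ σ ∈ V.inertiaSubgroupIn ℚ,
      ∀ (n : ℕ) [NeZero n], ¬ l ∣ n →
      ∀ φ : PeriodHecke.Hpar (CongruenceSubgroup.Gamma1 M) (ZMod n),
        (∀ γ : CongruenceSubgroup.Gamma0 M,
          (((γ : SL(2, ℤ)) 1 1 : ℤ) : ZMod (M / l)) = 1 → diamond M γ φ = φ) →
        B • (((gtor D hA n).act σ - 1) ^ 2 :
          AddMonoid.End (PeriodHecke.Hpar (CongruenceSubgroup.Gamma1 M) (ZMod n))) φ = 0

/-- The two eigenvalues `1` and `δ` on the classes fixed by the diamond `-1` at `l`. -/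
def TargetInertia : Prop :=
  ∀ (M : ℕ) [NeZero M] (κ : LL →+* ℂ) (D : Field1 M κ) (hA : AuxLevel M) (l : ℕ),
    l.Prime → l ∣ M → ¬ l ^ 2 ∣ M → ∃ B : ℕ, 0 < B ∧
    ∀ V : ValuationSubring LL, V.LiesOverPrime l → ∀ σ ∈ V.inertiaSubgroupIn ℚ,
      ∀ γ : CongruenceSubgroup.Gamma0 M, (((γ : SL(2, ℤ)) 1 1 : ℤ) : ZMod (M / l)) = 1 →
      (∀ ζ : LL, ζ ^ l = 1 → σ ζ = ζ ^ ((((γ : SL(2, ℤ)) 1 1 : ℤ) : ZMod l).val)) →
      ∀ (n : ℕ) [NeZero n], ¬ l ∣ n →
      ∀ φ : PeriodHecke.Hpar (CongruenceSubgroup.Gamma1 M) (ZMod n),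
        (∀ g : CongruenceSubgroup.Gamma0 M, (((g : SL(2, ℤ)) 1 1 : ℤ) : ZMod (M / l)) = 1 →
          (((g : SL(2, ℤ)) 1 1 : ℤ) : ZMod l) = -1 → diamond M g φ = φ) →
        B • (((gtor D hA n).act σ - 1) ^ inertiaExp *
            ((gtor D hA n).act σ - (show AddMonoid.End (PeriodHecke.Hpar (CongruenceSubgroup.Gamma1 M)
              (ZMod n)) from diamond M γ)) ^ inertiaExp :
          AddMonoid.End (PeriodHecke.Hpar (CongruenceSubgroup.Gamma1 M) (ZMod n))) φ = 0

end FLTAgent.Lowering.P3
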